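import Mathlib
import Fermat.Agent.S23.Defs
import Fermat.Agent.S23.RatSpan
import Fermat.Agent.S23.LevelRaise

/-!
# From `±𝒢` to `𝒢`: the fraction lemma for every weight (brick (C+D) of DS / C.Int)

Let `𝒢` be a subgroup of `GL(2, ℝ)` of determinant one with `1 ∈ 𝒢.strictPeriods`.

* `liftCusp`, `liftModular` : an even weight form on `𝒢` is a form on `𝒢.adjoinNegOne`
  (same underlying function);
* `restrict_mem_ratSpan` : restriction to a smaller group preserves `ratSpan`;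
* `exists_fraction_of_pm` : if every even weight cusp form on `𝒢.adjoinNegOne` is a quotient
  `P / Q` of two forms in `ratSpan`, and either `-1 ∈ 𝒢` or there is a nonzero odd weight form
  with integral `q`-expansion on `𝒢`, then every cusp form on `𝒢` (any weight) is such a
  quotient.
-/

set_option autoImplicit false

namespace Fermat.Agent.S48.IntG1.FracAll

open UpperHalfPlane ModularForm SlashInvariantForm
open Fermat.Agent.S23 Fermat.Agent.S23.Defs Fermat.Agent.S23.RatSpan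
open scoped MatrixGroups ModularForm Manifold

noncomputable section

/-! ### Even weight: `-γ` acts like `γ` -/

lemma slash_neg_of_even {k : ℤ} (hk : Even k) (f : ℍ → ℂ) (γ : GL (Fin 2) ℝ) :
    f ∣[k] (-γ) = f ∣[k] γ := by
  ext τ
  have hdet : (-γ).det.val = γ.det.val := by
    simp [Matrix.det_neg]
  rw [ModularForm.slash_apply, ModularForm.slash_apply, σ_neg, UpperHalfPlane.neg_smul, denom_neg,
    hdet, Even.neg_zpow hk.neg]

/-- An even weight cusp form on `𝒢` is a cusp form on `𝒢.adjoinNegOne`. -/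
def liftCusp (𝒢 : Subgroup (GL (Fin 2) ℝ)) {k : ℤ} (hk : Even k) (f : CuspForm 𝒢 k) :
    CuspForm 𝒢.adjoinNegOne k where
  toFun := f
  slash_action_eq' γ hγ := by
    rcases hγ with h | h
    · exact f.slash_action_eq' γ h
    · have := f.slash_action_eq' (-γ) h
      rwa [slash_neg_of_even hk] at this
  holo' := f.holo'
  zero_at_cusps' hc := f.zero_at_cusps' ((𝒢.commensurable_adjoinNegOne_self.isCusp_iff).mp hc)

@[simp] lemma coe_liftCusp (𝒢 : Subgroup (GL (Fin 2) ℝ)) {k : ℤ} (hk : Even k) (f : CuspForm 𝒢 k) :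
    ⇑(liftCusp 𝒢 hk f) = ⇑f := rfl

/-- An even weight modular form on `𝒢` is a modular form on `𝒢.adjoinNegOne`. -/
def liftModular (𝒢 : Subgroup (GL (Fin 2) ℝ)) {k : ℤ} (hk : Even k) (f : ModularForm 𝒢 k) :
    ModularForm 𝒢.adjoinNegOne k where
  toFun := f
  slash_action_eq' γ hγ := by
    rcases hγ with h | h
    · exact f.slash_action_eq' γ h
    · have := f.slash_action_eq' (-γ) h
      rwa [slash_neg_of_even hk] at this
  holo' := f.holo'
  bdd_at_cusps' hc := f.bdd_at_cusps' ((𝒢.commensurable_adjoinNegOne_self.isCusp_iff).mp hc)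

@[simp] lemma coe_liftModular (𝒢 : Subgroup (GL (Fin 2) ℝ)) {k : ℤ} (hk : Even k)
    (f : ModularForm 𝒢 k) : ⇑(liftModular 𝒢 hk f) = ⇑f := rfl

/-- **(C)** An even weight cusp form on `𝒢` lifts to `𝒢.adjoinNegOne`. -/
theorem exists_liftCusp (𝒢 : Subgroup (GL (Fin 2) ℝ)) {k : ℤ} (hk : Even k) (f : CuspForm 𝒢 k) :
    ∃ f' : CuspForm 𝒢.adjoinNegOne k, (⇑f' : ℍ → ℂ) = ⇑f :=
  ⟨liftCusp 𝒢 hk f, rfl⟩

/-- An even weight modular form on `𝒢` lifts to `𝒢.adjoinNegOne`. -/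
theorem exists_liftModular (𝒢 : Subgroup (GL (Fin 2) ℝ)) {k : ℤ} (hk : Even k)
    (f : ModularForm 𝒢 k) : ∃ f' : ModularForm 𝒢.adjoinNegOne k, (⇑f' : ℍ → ℂ) = ⇑f :=
  ⟨liftModular 𝒢 hk f, rfl⟩

/-! ### The group `𝒢.adjoinNegOne` -/

lemma one_mem_strictPeriods_adjoinNegOne {𝒢 : Subgroup (GL (Fin 2) ℝ)}
    (h1 : (1 : ℝ) ∈ 𝒢.strictPeriods) : (1 : ℝ) ∈ 𝒢.adjoinNegOne.strictPeriods :=
  𝒢.strictPeriods_le_periods h1

lemma neg_one_mem_SL : (-1 : GL (Fin 2) ℝ) ∈ 𝒮ℒ := by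
  refine ⟨-1, ?_⟩
  apply Matrix.GeneralLinearGroup.ext
  intro i j
  fin_cases i <;> fin_cases j <;> simp

lemma adjoinNegOne_le_SL {𝒢 : Subgroup (GL (Fin 2) ℝ)} (hle : 𝒢 ≤ 𝒮ℒ) :
    𝒢.adjoinNegOne ≤ 𝒮ℒ := by
  rintro g (hg | hg)
  · exact hle hg
  · have := mul_mem neg_one_mem_SL (hle hg)
    simpa using this

/-! ### Restriction and `ratSpan` -/

/-- **(D)** Restriction to a smaller group preserves `ratSpan`. -/
theorem restrict_mem_ratSpan {Γ Γ' : Subgroup (GL (Fin 2) ℝ)} [Γ.HasDetOne] [Γ'.HasDetOne]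
    (h : Γ' ≤ Γ) {w : ℤ} {F : ModularForm Γ w} (hF : F ∈ ratSpan Γ w) :
    LevelRaise.restrict h F ∈ ratSpan Γ' w := by
  refine Submodule.span_induction
    (p := fun (x : ModularForm Γ w) _ => LevelRaise.restrict h x ∈ ratSpan Γ' w) ?_ ?_ ?_ ?_ hF
  · intro x hx
    exact Submodule.subset_span hx
  · have : LevelRaise.restrict h (0 : ModularForm Γ w) = 0 := by ext τ; rfl
    rw [this]; exact Submodule.zero_mem _
  · intro x y _ _ hx hy
    have : LevelRaise.restrict h (x + y) = LevelRaise.restrict h x + LevelRaise.restrict h y := by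
      ext τ; rfl
    rw [this]; exact Submodule.add_mem _ hx hy
  · intro a x _ hx
    have : LevelRaise.restrict h (a • x) = a • LevelRaise.restrict h x := by ext τ; rfl
    rw [this]; exact Submodule.smul_mem _ a hx

/-- The lift of an even weight form with integral `q`-expansion has integral `q`-expansion
(same function, same `q`-expansion). -/
lemma isIntPS_liftModular (𝒢 : Subgroup (GL (Fin 2) ℝ)) {k : ℤ} (hk : Even k)
    (f : ModularForm 𝒢 k) (hf : IsIntPS (qExpansion 1 f)) :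
    IsIntPS (qExpansion 1 (liftModular 𝒢 hk f)) := hf

/-- Lifting to `𝒢.adjoinNegOne` preserves `ratSpan` (even weight). -/
theorem liftModular_mem_ratSpan (𝒢 : Subgroup (GL (Fin 2) ℝ)) [𝒢.HasDetOne] {w : ℤ}
    (hw : Even w) {F : ModularForm 𝒢 w} (hF : F ∈ ratSpan 𝒢 w) :
    liftModular 𝒢 hw F ∈ ratSpan 𝒢.adjoinNegOne w := by
  refine Submodule.span_induction
    (p := fun (x : ModularForm 𝒢 w) _ => liftModular 𝒢 hw x ∈ ratSpan 𝒢.adjoinNegOne w)
    ?_ ?_ ?_ ?_ hF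
  · intro x hx
    exact Submodule.subset_span hx
  · have : liftModular 𝒢 hw (0 : ModularForm 𝒢 w) = 0 := by ext τ; rfl
    rw [this]; exact Submodule.zero_mem _
  · intro x y _ _ hx hy
    have : liftModular 𝒢 hw (x + y) = liftModular 𝒢 hw x + liftModular 𝒢 hw y := by
      ext τ; rfl
    rw [this]; exact Submodule.add_mem _ hx hy
  · intro a x _ hx
    have : liftModular 𝒢 hw (a • x) = a • liftModular 𝒢 hw x := by ext τ; rfl
    rw [this]; exact Submodule.smul_mem _ a hx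

/-! ### Products of nonzero forms -/

/-- The product of two nonzero modular forms is a nonzero function. -/
lemma mul_ne_zero_of_ne_zero {𝒢 : Subgroup (GL (Fin 2) ℝ)} (h1 : (1 : ℝ) ∈ 𝒢.strictPeriods)
    {w₁ w₂ : ℤ} {a : ModularForm 𝒢 w₁} {b : ModularForm 𝒢 w₂} (ha : a ≠ 0) (hb : b ≠ 0) :
    (⇑a * ⇑b : ℍ → ℂ) ≠ 0 := by
  intro h
  have hna : Nice (⇑a) := Nice.of_modularForm h1 a
  have hnb : Nice (⇑b) := Nice.of_modularForm h1 b
  have hq : qExpansion 1 (⇑a * ⇑b) = qExpansion 1 a * qExpansion 1 b :=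
    qExpansion_mul hna.analytic hnb.analytic
  rw [h, qExpansion_zero] at hq
  rcases mul_eq_zero.mp hq.symm with h0 | h0
  · exact ha (DFunLike.coe_injective (hna.eq_zero_of_qExpansion h0))
  · exact hb (DFunLike.coe_injective (hnb.eq_zero_of_qExpansion h0))

/-! ### The fraction lemma: from `±𝒢` to `𝒢` -/

/-- The conclusion of the fraction lemma for one cusp form. -/
def HasFraction (𝒢 : Subgroup (GL (Fin 2) ℝ)) [𝒢.HasDetOne] {k : ℤ} (f : CuspForm 𝒢 k) : Prop :=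
  ∃ (w : ℤ) (Q : ModularForm 𝒢 w) (P : ModularForm 𝒢 (w + k)),
    Q ≠ 0 ∧ (∀ τ : ℍ, f τ * Q τ = P τ) ∧ Q ∈ ratSpan 𝒢 w ∧ P ∈ ratSpan 𝒢 (w + k)

/-- Even weight: a fraction on `𝒢.adjoinNegOne` restricts to a fraction on `𝒢`. -/
theorem hasFraction_of_even (𝒢 : Subgroup (GL (Fin 2) ℝ)) [𝒢.HasDetOne]
    {k : ℤ} (hk : Even k) (f : CuspForm 𝒢 k)
    (hfrac : HasFraction 𝒢.adjoinNegOne (liftCusp 𝒢 hk f)) : HasFraction 𝒢 f := by
  obtain ⟨w, Q, P, hQ0, hfun, hQ, hP⟩ := hfrac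
  refine ⟨w, LevelRaise.restrict 𝒢.le_adjoinNegOne Q, LevelRaise.restrict 𝒢.le_adjoinNegOne P,
    ?_, hfun, restrict_mem_ratSpan _ hQ, restrict_mem_ratSpan _ hP⟩
  intro h0
  apply hQ0
  ext τ
  exact congrArg (fun F : ModularForm 𝒢 w => F τ) h0

/-- Odd weight, `-1 ∈ 𝒢`: every cusp form vanishes. -/
lemma cuspForm_eq_zero_of_neg_one_mem {𝒢 : Subgroup (GL (Fin 2) ℝ)} [𝒢.HasDetOne] {k : ℤ}
    (h_neg_one : (-1 : GL (Fin 2) ℝ) ∈ 𝒢) (hk : Odd k) (f : CuspForm 𝒢 k) (z : ℍ) : f z = 0 := by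
  have hf := SlashInvariantForm.slash_action_eqn'' f h_neg_one z
  rw [UpperHalfPlane.neg_smul, one_smul, denom_neg, denom_one, hk.neg_one_zpow] at hf
  have h2 : (2 : ℂ) * f z = 0 := by linear_combination hf
  exact (mul_eq_zero.mp h2).resolve_left (by norm_num)

/-- **(C+D), abstract form.** If every even weight cusp form on `𝒢.adjoinNegOne` is a quotient
of two forms in `ratSpan`, and either `-1 ∈ 𝒢` or `𝒢` carries a nonzero odd weight form with
integral `q`-expansion, then every cusp form on `𝒢` (of any weight) is a quotient of two forms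
in `ratSpan 𝒢`. -/
theorem exists_fraction_of_pm (𝒢 : Subgroup (GL (Fin 2) ℝ)) [𝒢.HasDetOne]
    (h1 : (1 : ℝ) ∈ 𝒢.strictPeriods)
    (hpm : ∀ (k : ℤ), Even k → ∀ f : CuspForm 𝒢.adjoinNegOne k,
      ∃ (w : ℤ) (Q : ModularForm 𝒢.adjoinNegOne w) (P : ModularForm 𝒢.adjoinNegOne (w + k)),
        Q ≠ 0 ∧ (∀ τ : ℍ, f τ * Q τ = P τ) ∧ Q ∈ ratSpan 𝒢.adjoinNegOne w ∧
          P ∈ ratSpan 𝒢.adjoinNegOne (w + k))
    (hodd : (-1 : GL (Fin 2) ℝ) ∈ 𝒢 ∨ ∃ (w₀ : ℤ) (g₀ : ModularForm 𝒢 w₀),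
      Odd w₀ ∧ IsIntPS (qExpansion 1 g₀) ∧ g₀ ≠ 0)
    (k : ℤ) (f : CuspForm 𝒢 k) :
    ∃ (w : ℤ) (Q : ModularForm 𝒢 w) (P : ModularForm 𝒢 (w + k)),
      Q ≠ 0 ∧ (∀ τ : ℍ, f τ * Q τ = P τ) ∧ Q ∈ ratSpan 𝒢 w ∧ P ∈ ratSpan 𝒢 (w + k) := by
  have heven : ∀ (k' : ℤ), Even k' → ∀ f' : CuspForm 𝒢 k', HasFraction 𝒢 f' :=
    fun k' hk' f' => hasFraction_of_even 𝒢 hk' f' (hpm k' hk' (liftCusp 𝒢 hk' f'))
  rcases Int.even_or_odd k with hk | hk
  · exact heven k hk f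
  rcases hodd with hneg | ⟨w₀, g₀, hw₀, hg₀int, hg₀⟩
  · -- `f = 0`
    obtain ⟨Q, hQ, hQfun⟩ := InRatSpan.one (Γ := 𝒢)
    refine ⟨0, Q, 0, ?_, ?_, hQ, Submodule.zero_mem _⟩
    · intro h0
      have := congrFun hQfun (UpperHalfPlane.I)
      rw [h0] at this
      simp at this
    · intro τ
      rw [cuspForm_eq_zero_of_neg_one_mem hneg hk f τ]
      simp
  · -- multiply by the odd weight form
    have hkw : Even (k + w₀) := hk.add_odd hw₀
    obtain ⟨w, Q', P', hQ'0, hfun, hQ', hP'⟩ := heven (k + w₀) hkw (f.mulModularForm g₀)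
    obtain ⟨Q, hQ, hQfun⟩ : InRatSpan 𝒢 (w₀ + w) (⇑g₀ * ⇑Q') :=
      InRatSpan.mul h1 (InRatSpan.of_int g₀ hg₀int) ⟨Q', hQ', rfl⟩
    obtain ⟨P, hP, hPfun⟩ : InRatSpan 𝒢 (w₀ + w + k) (⇑P') :=
      InRatSpan.cast (by ring) ⟨P', hP', rfl⟩
    refine ⟨w₀ + w, Q, P, ?_, ?_, hQ, hP⟩
    · intro h0
      apply mul_ne_zero_of_ne_zero h1 hg₀ hQ'0
      rw [← hQfun, h0]
      rfl
    · intro τ
      have h2 := hfun τ
      rw [CuspForm.coe_mulModularForm] at h2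
      rw [hQfun, hPfun, ← h2]
      simp only [Pi.mul_apply]
      ring

end

end Fermat.Agent.S48.IntG1.FracAll
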