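import Mathlib
import Fermat.Agent.S23.Defs
import Fermat.Agent.S23.RatSpan
import Fermat.Agent.S23.LevelRaise
import Fermat.Agent.S23.Interp
import Fermat.Agent.S23.TForm
import Fermat.Agent.S48.IntBasis1.Gen
import Fermat.Agent.S48.IntG1.FracAll

/-!
# Integral structure on `𝒢` from a separator on `±𝒢` and an odd seed

Glue of `IntBasis1.Gen` (fraction lemma from a separating pair, wiring) with `IntG1.FracAll`
(passage from `𝒢.adjoinNegOne` to `𝒢`, every weight):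

* `exists_fraction_all` : a weight 4 form `t` on `𝒢.adjoinNegOne` with integral `q`-expansion
  which is fixed by no nontrivial coset of `𝒢.adjoinNegOne` in `SL(2, ℤ)`, plus an odd seed,
  give the fraction lemma for every cusp form on `𝒢`;
* `span_int_of_sep_pm`, `span_int_of_pair_pm` : the integral structure of `S_k(𝒢)`, every `k`.
-/

set_option autoImplicit false

namespace Fermat.Agent.S48.IntG1.FracAllSep

open UpperHalfPlane ModularForm SlashInvariantForm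
open Fermat.Agent.S23 Fermat.Agent.S23.Defs Fermat.Agent.S23.RatSpan
open Fermat.Agent.S48.IntG1.FracAll
open scoped MatrixGroups ModularForm Manifold

noncomputable section

/-- The translates of (the restriction of) a level one form are the form itself. -/
lemma quotientFunc_restrict_levelOne {Γ : Subgroup (GL (Fin 2) ℝ)} (hle : Γ ≤ 𝒮ℒ) {w : ℤ}
    (F : ModularForm 𝒮ℒ w) (l : 𝒮ℒ ⧸ Γ.subgroupOf 𝒮ℒ) :
    quotientFunc (ℋ := 𝒮ℒ) (LevelRaise.restrict hle F) l = ⇑F := by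
  induction l using Quotient.inductionOn with
  | h r =>
    obtain ⟨γ, hγ⟩ : ∃ γ : SL(2, ℤ), Matrix.SpecialLinearGroup.mapGL ℝ γ = r.val⁻¹ := inv_mem r.2
    rw [quotientFunc_mk, ← hγ]
    exact SlashInvariantForm.slash_action_eqn F _ ⟨γ, rfl⟩

/-- `E₄` is not the zero function. -/
lemma coe_E₄_ne_zero : (⇑E₄ : ℍ → ℂ) ≠ 0 := by
  intro h
  have h0 := EisensteinSeries.E_qExpansion_coeff (k := 4) (by norm_num) ⟨2, rfl⟩ 0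
  rw [h, qExpansion_zero] at h0
  simp at h0

/-- A weight `w` form `t` which differs from each of its nontrivial translates is separated
from them by the pair `(t, F)`, `F` any nonzero level one form of the same weight. -/
lemma sep_pair_of_ne {Γ : Subgroup (GL (Fin 2) ℝ)} (hle : Γ ≤ 𝒮ℒ) {w : ℤ}
    (t : ModularForm Γ w) (F : ModularForm 𝒮ℒ w) (hF : (⇑F : ℍ → ℂ) ≠ 0)
    (l : 𝒮ℒ ⧸ Γ.subgroupOf 𝒮ℒ) (hl : quotientFunc (ℋ := 𝒮ℒ) t l ≠ ⇑t) :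
    ∃ τ : ℍ, t τ * quotientFunc (ℋ := 𝒮ℒ) (LevelRaise.restrict hle F) l τ
      - quotientFunc (ℋ := 𝒮ℒ) t l τ * LevelRaise.restrict hle F τ ≠ 0 := by
  by_contra hcon
  push Not at hcon
  have h0 : (⇑t - quotientFunc (ℋ := 𝒮ℒ) t l) * ⇑F = 0 := by
    ext τ
    have := hcon τ
    rw [quotientFunc_restrict_levelOne, LevelRaise.coe_restrict] at this
    simp only [Pi.mul_apply, Pi.sub_apply, Pi.zero_apply]
    linear_combination this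
  have hd : MDiff (⇑t - quotientFunc (ℋ := 𝒮ℒ) t l) :=
    (ModularFormClass.holo t).sub (Interp.mdiff_quotientFunc t l)
  rcases (UpperHalfPlane.mul_eq_zero_iff hd (ModularFormClass.holo F)).mp h0 with h | h
  · exact hl (sub_eq_zero.mp h).symm
  · exact hF h

variable (𝒢 : Subgroup (GL (Fin 2) ℝ)) [𝒢.IsArithmetic] [𝒢.HasDetOne]

/-- **Fraction lemma on `𝒢` from a separating pair on `±𝒢`** (every weight). -/
theorem exists_fraction_of_pair_pm (h1 : (1 : ℝ) ∈ 𝒢.strictPeriods) (hle : 𝒢 ≤ 𝒮ℒ) {w : ℤ}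
    (a b : ModularForm 𝒢.adjoinNegOne w) (ha : IsIntPS (qExpansion 1 a))
    (hb : IsIntPS (qExpansion 1 b))
    (hsep : ∀ l : 𝒮ℒ ⧸ 𝒢.adjoinNegOne.subgroupOf 𝒮ℒ, l ≠ ⟦1⟧ → ∃ τ : ℍ,
      a τ * quotientFunc (ℋ := 𝒮ℒ) b l τ - quotientFunc (ℋ := 𝒮ℒ) a l τ * b τ ≠ 0)
    (hodd : (-1 : GL (Fin 2) ℝ) ∈ 𝒢 ∨ ∃ (w₀ : ℤ) (g₀ : ModularForm 𝒢 w₀),
      Odd w₀ ∧ IsIntPS (qExpansion 1 g₀) ∧ g₀ ≠ 0)
    (k : ℤ) (f : CuspForm 𝒢 k) :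
    ∃ (w' : ℤ) (Q : ModularForm 𝒢 w') (P : ModularForm 𝒢 (w' + k)),
      Q ≠ 0 ∧ (∀ τ : ℍ, f τ * Q τ = P τ) ∧ Q ∈ ratSpan 𝒢 w' ∧ P ∈ ratSpan 𝒢 (w' + k) :=
  exists_fraction_of_pm 𝒢 h1
    (fun k' _ f' => IntBasis1.exists_fraction_of_sep (adjoinNegOne_le_SL hle)
      (one_mem_strictPeriods_adjoinNegOne h1) a b ha hb hsep k' f') hodd k f

/-- **(C+D), literal form.** Fraction lemma on `𝒢` from a weight `4` separator `t` on `±𝒢`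
(the second form of the pair is `E₄`) and an odd seed. -/
theorem exists_fraction_all (h1 : (1 : ℝ) ∈ 𝒢.strictPeriods) (hle : 𝒢 ≤ 𝒮ℒ)
    (t : ModularForm 𝒢.adjoinNegOne 4) (ht : IsIntPS (qExpansion 1 t))
    (hsep : ∀ l : 𝒮ℒ ⧸ 𝒢.adjoinNegOne.subgroupOf 𝒮ℒ, l ≠ ⟦1⟧ →
      quotientFunc (ℋ := 𝒮ℒ) t l ≠ ⇑t)
    (hodd : (-1 : GL (Fin 2) ℝ) ∈ 𝒢 ∨ ∃ (w₀ : ℤ) (g₀ : ModularForm 𝒢 w₀),
      Odd w₀ ∧ IsIntPS (qExpansion 1 g₀) ∧ g₀ ≠ 0)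
    (k : ℤ) (f : CuspForm 𝒢 k) :
    ∃ (w : ℤ) (Q : ModularForm 𝒢 w) (P : ModularForm 𝒢 (w + k)),
      Q ≠ 0 ∧ (∀ τ : ℍ, f τ * Q τ = P τ) ∧ Q ∈ ratSpan 𝒢 w ∧ P ∈ ratSpan 𝒢 (w + k) :=
  exists_fraction_of_pair_pm 𝒢 h1 hle t (LevelRaise.restrict (adjoinNegOne_le_SL hle) E₄) ht
    TForm.isIntPS_E₄
    (fun l hl => sep_pair_of_ne (adjoinNegOne_le_SL hle) t E₄ coe_E₄_ne_zero l (hsep l hl))
    hodd k f

/-- **Integral structure of `S_k(𝒢)`, every weight `k`, from a separating pair on `±𝒢` and an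
odd seed.** -/
theorem span_int_of_pair_pm (h1 : (1 : ℝ) ∈ 𝒢.strictPeriods) (hle : 𝒢 ≤ 𝒮ℒ) {w : ℤ}
    (a b : ModularForm 𝒢.adjoinNegOne w) (ha : IsIntPS (qExpansion 1 a))
    (hb : IsIntPS (qExpansion 1 b))
    (hsep : ∀ l : 𝒮ℒ ⧸ 𝒢.adjoinNegOne.subgroupOf 𝒮ℒ, l ≠ ⟦1⟧ → ∃ τ : ℍ,
      a τ * quotientFunc (ℋ := 𝒮ℒ) b l τ - quotientFunc (ℋ := 𝒮ℒ) a l τ * b τ ≠ 0)
    (hodd : (-1 : GL (Fin 2) ℝ) ∈ 𝒢 ∨ ∃ (w₀ : ℤ) (g₀ : ModularForm 𝒢 w₀),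
      Odd w₀ ∧ IsIntPS (qExpansion 1 g₀) ∧ g₀ ≠ 0)
    (k : ℤ) :
    Submodule.span ℂ {f : CuspForm 𝒢 k | IsIntPS (qExpansion 1 f)} = ⊤ :=
  IntBasis1.span_int_of_frac h1 k (exists_fraction_of_pair_pm 𝒢 h1 hle a b ha hb hsep hodd k)

/-- **Integral structure of `S_k(𝒢)`, every weight `k`, from a weight `4` separator on `±𝒢` and
an odd seed.** -/
theorem span_int_of_sep_pm (h1 : (1 : ℝ) ∈ 𝒢.strictPeriods) (hle : 𝒢 ≤ 𝒮ℒ)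
    (t : ModularForm 𝒢.adjoinNegOne 4) (ht : IsIntPS (qExpansion 1 t))
    (hsep : ∀ l : 𝒮ℒ ⧸ 𝒢.adjoinNegOne.subgroupOf 𝒮ℒ, l ≠ ⟦1⟧ →
      quotientFunc (ℋ := 𝒮ℒ) t l ≠ ⇑t)
    (hodd : (-1 : GL (Fin 2) ℝ) ∈ 𝒢 ∨ ∃ (w₀ : ℤ) (g₀ : ModularForm 𝒢 w₀),
      Odd w₀ ∧ IsIntPS (qExpansion 1 g₀) ∧ g₀ ≠ 0)
    (k : ℤ) :
    Submodule.span ℂ {f : CuspForm 𝒢 k | IsIntPS (qExpansion 1 f)} = ⊤ :=
  IntBasis1.span_int_of_frac h1 k (exists_fraction_all 𝒢 h1 hle t ht hsep hodd k)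

end

end Fermat.Agent.S48.IntG1.FracAllSep
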